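/-
M59 / box [C] Mazur at `(q, p) = (2, 3)`, cell [GEO-32r] (E2-ord) AT EXPONENT `3`: THE EXPONENT-27 PASS
(helper5; route = referee helper12 ref54 (1)).  Prefix `m59h3o_`.

This file: the two abstract devices.

* `m59h3o_exists_adjust` : a function `f ≠ 0` of `F̄_N` whose divisor is divisible by `a` can be
  multiplied by an `a`-th power `h ^ a` so that the divisor of `f * h ^ a` is divisible by `a * b`
  (`J₀(N)(ℚ̄)` is divisible: `s44kd_div`).
* `m59h3o_exists_val_pow` : `K'/K` finite, `R'` a valuation subring of `K'` (any rank), `y' ≠ 0`: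
  some `0 < d ≤ [K' : K]` and `c ∈ Kˣ` have `v(c) = v(y') ^ d` (the two-terms trick of
  `twfr_descend`).
* `m59h3o_descend` : value-group descent for a NON-coprime exponent: if every `0 < d ≤ [K' : K]` is
  coprime to `a * m` or divides `a`, then `x = u' y' ^ (a * m)` in `K'` (`u'` an `R'`-unit, `x ∈ K`)
  implies `x / y ^ m` is an `R'`-unit for some `y ∈ Kˣ` (exponent `a * m` upstairs, `m` downstairs).
-/
import Mathlib
import Fermat.Agent.S44.Bridge.Rep
import Fermat.Agent.S44.Res.Fin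
import Fermat.Agent.S44.Res.ValGroup
import Fermat.Agent.S44.OldK.DivN

set_option autoImplicit false

namespace Fermat.Agent.M59

open ModularCurve AlgebraicCurve Polynomial Fermat.Agent.JT3 Fermat.Agent.S24 Fermat.Agent.SS2
  Fermat.Agent.S44

section Adj

variable (N : ℕ) [NeZero N]

local notation "Qb" => AlgebraicClosure ℚ
local notation "FN" => modularFunctionFieldBar N

/-- **the exponent device**: a function whose divisor is divisible by `a` can be multiplied by an
`a`-th power so that its divisor becomes divisible by `a * b` (`J₀(N)(ℚ̄)` is divisible). -/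
theorem m59h3o_exists_adjust {a b : ℕ} (ha : 0 < a) (hb : b ≠ 0) {f : FN} (hf : f ≠ 0)
    (hdvd : ∀ v : Place Qb FN, (a : ℤ) ∣ v.ord f) :
    ∃ h : FN, h ≠ 0 ∧ ∀ v : Place Qb FN, ((a * b : ℕ) : ℤ) ∣ v.ord (f * h ^ a) := by
  obtain ⟨D, hD⟩ := s44rf_exists_div (K := Qb) (F := FN) ha hf hdvd
  obtain ⟨y, hy⟩ := s44kd_div N hb (Pic0.mk D)
  obtain ⟨D', rfl⟩ := Pic0.mk_surjective y
  have h1 : Pic0.mk (b • D') = Pic0.mk D := hy
  rw [ss2_du_mk_eq_mk_iff] at h1
  obtain ⟨g, hg0, hgv⟩ := h1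
  refine ⟨g⁻¹, inv_ne_zero hg0, fun v => ?_⟩
  have h2 := hgv v
  rw [Finsupp.sub_apply, AddSubgroup.coe_nsmul, Finsupp.smul_apply, nsmul_eq_mul] at h2
  rw [v.ord_mul hf (pow_ne_zero _ (inv_ne_zero hg0)), inv_pow, v.ord_inv, ← zpow_natCast,
    v.ord_zpow, ← hD v, ← h2]
  refine ⟨(D' : Divisor Qb FN) v, ?_⟩
  push_cast
  ring

end Adj

section Abs

variable {K' : Type*} [Field K'] {K : Type*} [Field K] [Algebra K K']

/-- the two-terms trick: some `0 < d ≤ [K' : K]` and `c ∈ Kˣ` have `v(c) = v(y') ^ d`. -/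
theorem m59h3o_exists_val_pow [FiniteDimensional K K'] (R' : ValuationSubring K') {y' : K'}
    (hy'0 : y' ≠ 0) :
    ∃ (d : ℕ) (c : K), 0 < d ∧ d ≤ Module.finrank K K' ∧ c ≠ 0 ∧
      R'.valuation (algebraMap K K' c) = R'.valuation y' ^ d := by
  classical
  set v := R'.valuation with hv
  have hvy0 : v y' ≠ 0 := (v.ne_zero_iff).2 hy'0
  have hint : IsIntegral K y' := Algebra.IsIntegral.isIntegral y'
  set P := minpoly K y' with hP
  have hP0 : P ≠ 0 := minpoly.ne_zero hint
  have hPdeg : P.natDegree ≤ Module.finrank K K' := minpoly.natDegree_le y'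
  have hroot : ∑ i ∈ P.support, algebraMap K K' (P.coeff i) * y' ^ i = 0 := by
    have h1 : aeval y' P = 0 := minpoly.aeval K y'
    rw [aeval_def, eval₂_eq_sum, Polynomial.sum_def] at h1
    exact h1
  have hne : ∃ i ∈ P.support, algebraMap K K' (P.coeff i) * y' ^ i ≠ 0 := by
    obtain ⟨i, hi⟩ := Finset.nonempty_iff_ne_empty.2 (fun h0 => hP0 (support_eq_empty.1 h0))
    refine ⟨i, hi, mul_ne_zero ?_ (pow_ne_zero _ hy'0)⟩
    rw [Ne, map_eq_zero]
    exact mem_support_iff.1 hi
  obtain ⟨i, hi, j, hj, hij, -, -, hval⟩ :=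
    s44rv_two_terms v P.support (fun i => algebraMap K K' (P.coeff i) * y' ^ i) hroot hne
  have key : ∀ i j : ℕ, i ∈ P.support → j ∈ P.support → i < j →
      v (algebraMap K K' (P.coeff i) * y' ^ i) = v (algebraMap K K' (P.coeff j) * y' ^ j) →
      ∃ (d : ℕ) (c : K), 0 < d ∧ d ≤ Module.finrank K K' ∧ c ≠ 0 ∧
        v (algebraMap K K' c) = v y' ^ d := by
    intro i j hi hj hlt hval
    have hai : P.coeff i ≠ 0 := mem_support_iff.1 hi
    have haj : P.coeff j ≠ 0 := mem_support_iff.1 hj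
    have hjle : j ≤ P.natDegree := le_natDegree_of_mem_supp j hj
    obtain ⟨d, rfl⟩ : ∃ d, j = i + d := ⟨j - i, by omega⟩
    have hd0 : 0 < d := by omega
    have hdp : d ≤ Module.finrank K K' := by omega
    refine ⟨d, P.coeff i / P.coeff (i + d), hd0, hdp, div_ne_zero hai haj, ?_⟩
    have haj' : v (algebraMap K K' (P.coeff (i + d))) ≠ 0 := by
      rw [Valuation.ne_zero_iff, Ne, map_eq_zero]
      exact haj
    rw [map_mul, map_mul, map_pow, map_pow, pow_add] at hval
    rw [map_div₀, map_div₀, div_eq_iff haj']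
    have hvi : v y' ^ i ≠ 0 := pow_ne_zero _ hvy0
    have : v (algebraMap K K' (P.coeff i)) * v y' ^ i =
        v y' ^ d * v (algebraMap K K' (P.coeff (i + d))) * v y' ^ i := by
      rw [hval, mul_comm (v y' ^ d), mul_assoc, mul_comm (v y' ^ d)]
    exact mul_right_cancel₀ hvi this
  rcases lt_or_gt_of_ne hij with hlt | hlt
  · exact key i j hi hj hlt hval
  · exact key j i hj hi hlt hval.symm

/-- **value-group descent, exponent `a * m` upstairs, `m` downstairs**: if every `0 < d ≤ [K' : K]`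
is coprime to `a * m` or divides `a`, an `(a * m)`-th power in `K'` up to an `R'`-unit is an `m`-th
power in `K` up to an `R'`-unit. -/
theorem m59h3o_descend [FiniteDimensional K K'] (R' : ValuationSubring K') {a m : ℕ}
    (ha0 : a ≠ 0) (hm0 : m ≠ 0)
    (hdeg : ∀ d : ℕ, 0 < d → d ≤ Module.finrank K K' → Nat.Coprime d (a * m) ∨ d ∣ a)
    {x : K} (hx : x ≠ 0) {y' u' : K'} (hu : u' ∈ R' ∧ u' ∉ R'.nonunits)
    (h : algebraMap K K' x = u' * y' ^ (a * m)) :
    ∃ y : K, y ≠ 0 ∧ (algebraMap K K' x / algebraMap K K' y ^ m ∈ R' ∧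
      algebraMap K K' x / algebraMap K K' y ^ m ∉ R'.nonunits) := by
  classical
  set v := R'.valuation with hv
  have hx' : algebraMap K K' x ≠ 0 := by rwa [Ne, map_eq_zero]
  have ham0 : a * m ≠ 0 := Nat.mul_ne_zero ha0 hm0
  have hy'0 : y' ≠ 0 := by
    rintro rfl
    rw [zero_pow ham0, mul_zero] at h
    exact hx' h
  have hvu : v u' = 1 := by
    have h1 : (R'.valuation u') ≤ 1 := (ValuationSubring.valuation_le_one_iff _ _).2 hu.1
    have h2 : ¬ (R'.valuation u') < 1 := fun h2 =>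
      hu.2 ((ValuationSubring.mem_nonunits_iff R').2 h2)
    exact le_antisymm h1 (not_lt.1 h2)
  have hvy0 : v y' ≠ 0 := (v.ne_zero_iff).2 hy'0
  have hvx : v (algebraMap K K' x) = v y' ^ (a * m) := by
    rw [h, map_mul, hvu, one_mul, map_pow]
  obtain ⟨d, c, hd0, hdle, hc0, hvc⟩ := m59h3o_exists_val_pow (K := K) R' hy'0
  -- an element of `K` whose `m`-th power has the value of `x`
  obtain ⟨y, hy0, hvy⟩ : ∃ y : K, y ≠ 0 ∧ v (algebraMap K K' y) ^ m = v y' ^ (a * m) := by
    rcases hdeg d hd0 hdle with hcop | hda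
    · have hcop' : IsCoprime (d : ℤ) ((a * m : ℕ) : ℤ) := by
        rw [Int.isCoprime_iff_gcd_eq_one, Int.gcd_natCast_natCast]
        exact hcop
      obtain ⟨α, β, hab⟩ := hcop'
      refine ⟨(c ^ α * x ^ β) ^ a, pow_ne_zero _ (mul_ne_zero (zpow_ne_zero _ hc0)
        (zpow_ne_zero _ hx)), ?_⟩
      have h1 : v (algebraMap K K' (c ^ α * x ^ β)) = v y' := by
        rw [map_mul, map_zpow₀, map_zpow₀, map_mul, map_zpow₀, map_zpow₀, hvc, hvx,
          ← zpow_natCast, ← zpow_natCast (v y'), ← zpow_mul, ← zpow_mul, ← zpow_add₀ hvy0]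
        have : (d : ℤ) * α + ((a * m : ℕ) : ℤ) * β = 1 := by rw [← hab]; ring
        rw [this, zpow_one]
      rw [map_pow, map_pow, h1, ← pow_mul]
    · obtain ⟨e, rfl⟩ := hda
      refine ⟨c ^ e, pow_ne_zero _ hc0, ?_⟩
      rw [map_pow, map_pow, hvc, ← pow_mul, ← pow_mul, mul_assoc]
  refine ⟨y, hy0, ?_⟩
  have hval1 : v (algebraMap K K' x / algebraMap K K' y ^ m) = 1 := by
    rw [map_div₀, map_pow, hvy, hvx, div_self (pow_ne_zero _ hvy0)]
  constructor
  · exact (ValuationSubring.valuation_le_one_iff _ _).1 (le_of_eq hval1)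
  · intro hnu
    have := (ValuationSubring.mem_nonunits_iff R').1 hnu
    rw [← hv, hval1] at this
    exact lt_irrefl _ this

end Abs

end Fermat.Agent.M59
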