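/-
M59 / box [C] Mazur at `(q, p) = (2, 3)`, cell [GEO-32r] (E2-ord) AT EXPONENT `3`: THE EXPONENT-27 PASS
(helper5; route = referee helper12 ref54 (1)).  Prefix `m59h3o_`.

Twin of helper28's `m59h2_twfr_tower` (`Hesse2/Res/HesOrdAux.lean`) for the exponent `3`: along the
Hesse tower `φ(F) ⊆ φ(F)(μ³) ⊆ E` (degrees `≤ 4` and `≤ 3`) an `R'`-unit times a `27`-th power of
`E` which lies in `φ(F)` is an `R'`-unit times a CUBE of `φ(F)` (27 ⟶ 9 ⟶ 3 by `m59h3o_descend`: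
every `d ∈ {1, 2, 3, 4}` is prime to `3` or divides `3`).
-/
import Mathlib
import Fermat.Agent.M59.Hesse2.Res.HesOrdAux
import Fermat.Agent.M59.Hesse3.Ord.Adjust

set_option autoImplicit false
set_option linter.style.haveILetI false
set_option linter.unusedSectionVars false
set_option linter.unusedVariables false

noncomputable section

namespace Fermat.Agent.M59

open Fermat.Agent.SS Fermat.Agent.JT3 Fermat.Agent.S35 IntermediateField ModularCurve IsLocalRing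
  AlgebraicCurve Polynomial Fermat.Agent.S44 Fermat.Agent.TW Fermat.Agent.SS2

section TowerDescent27

variable (L : Type*) [Field L] [CharZero L] (h3 : (3 : L) ≠ 0) (N : ℕ) [NeZero N]

/-- every `0 < d ≤ 4` is prime to `3 * m` (`m` a power of `3`... here `m ∈ {9, 3}` is only used
through `3 * m`) or divides `3`: arithmetic input of the two descents. -/
theorem m59h3o_deg_cases {m : ℕ} (hm : ∃ n : ℕ, m = 3 ^ n) (d : ℕ) (hd0 : 0 < d) (hd4 : d ≤ 4) :
    Nat.Coprime d (3 * m) ∨ d ∣ 3 := by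
  obtain ⟨n, rfl⟩ := hm
  have h3n : 3 * 3 ^ n = 3 ^ (n + 1) := by rw [pow_succ, mul_comm]
  rw [h3n]
  interval_cases d
  · exact Or.inl (Nat.coprime_one_left _)
  · exact Or.inl (Nat.Coprime.pow_right _ (by norm_num))
  · exact Or.inr dvd_rfl
  · exact Or.inl (Nat.Coprime.pow_right _ (by norm_num))

set_option maxHeartbeats 1600000 in
set_option synthInstance.maxHeartbeats 200000 in
/-- **value-group descent along the Hesse cover** `φ(F) ⊆ φ(F)(μ³) ⊆ E`, exponent `27` upstairs,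
`3` downstairs. -/
theorem m59h3o_tower27 (R' : ValuationSubring ↥(hs_E L h3 N))
    {x : ↥(lg_F L N)} (hx : x ≠ 0) {y' u' : ↥(hs_E L h3 N)} (hu : u' ∈ R' ∧ u' ∉ R'.nonunits)
    (h : hs_phiE h3 (N := N) x = u' * y' ^ 27) :
    ∃ y : ↥(lg_F L N), y ≠ 0 ∧
      (hs_phiE h3 (N := N) x / hs_phiE h3 (N := N) y ^ 3 ∈ R' ∧
        hs_phiE h3 (N := N) x / hs_phiE h3 (N := N) y ^ 3 ∉ R'.nonunits) := by
  letI : Algebra ↥(lg_F L N) ↥(hs_E L h3 N) :=
    ((hs_phiE h3 (N := N) : ↥(lg_F L N) →ₐ[L] ↥(hs_E L h3 N)) :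
      ↥(lg_F L N) →+* ↥(hs_E L h3 N)).toAlgebra
  obtain ⟨Kt, hfd1, hfr1, hfd2, hfr2⟩ := m59h2_s44ro_tower_fields L h3 N
  haveI := hfd1
  haveI := hfd2
  -- step 1: descend to `F(s)`, 27 = 3 * 9 ⟶ 9
  have hxK : algebraMap ↥(lg_F L N) ↥Kt x ≠ 0 := by
    rwa [Ne, map_eq_zero]
  obtain ⟨y1, hy10, hy1, hy1'⟩ := m59h3o_descend (K := ↥Kt) (K' := ↥(hs_E L h3 N)) R'
    (a := 3) (m := 9) (by norm_num) (by norm_num)
    (fun d hd0 hd => m59h3o_deg_cases ⟨2, by norm_num⟩ d hd0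
      (hd.trans (hfr2.trans (by norm_num)))) hxK hu
    (show algebraMap ↥Kt ↥(hs_E L h3 N)
      (algebraMap ↥(lg_F L N) ↥Kt x) = u' * y' ^ (3 * 9) from h)
  -- step 2: descend to `F`, 9 = 3 * 3 ⟶ 3
  set R1 : ValuationSubring ↥Kt := R'.comap (algebraMap ↥Kt ↥(hs_E L h3 N)) with hR1
  set u1 : ↥Kt := algebraMap ↥(lg_F L N) ↥Kt x / y1 ^ 9 with hu1
  have hu1R : u1 ∈ R1 ∧ u1 ∉ R1.nonunits := by
    have e : algebraMap ↥Kt ↥(hs_E L h3 N) u1 =
        algebraMap ↥Kt ↥(hs_E L h3 N) (algebraMap ↥(lg_F L N) ↥Kt x) /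
          algebraMap ↥Kt ↥(hs_E L h3 N) y1 ^ 9 := by
      rw [hu1, map_div₀, map_pow]
    refine ⟨?_, ?_⟩
    · show algebraMap ↥Kt ↥(hs_E L h3 N) u1 ∈ R'
      rw [e]; exact hy1
    · intro hnu
      apply hy1'
      rw [← e]
      rw [ValuationSubring.mem_nonunits_iff_or] at hnu ⊢
      rcases hnu with h0 | h0
      · left; rw [h0, map_zero]
      · right
        intro h1
        apply h0
        show algebraMap ↥Kt ↥(hs_E L h3 N) u1⁻¹ ∈ R'
        rw [map_inv₀]; exact h1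
  have hx1 : algebraMap ↥(lg_F L N) ↥Kt x = u1 * y1 ^ (3 * 3) := by
    rw [hu1, div_mul_cancel₀ _ (pow_ne_zero _ hy10)]
  obtain ⟨y, hy0, hy, hy'⟩ := m59h3o_descend (K := ↥(lg_F L N)) (K' := ↥Kt) R1
    (a := 3) (m := 3) (by norm_num) (by norm_num)
    (fun d hd0 hd => m59h3o_deg_cases ⟨1, by norm_num⟩ d hd0 (hd.trans hfr1)) hx hu1R hx1
  refine ⟨y, hy0, ?_, ?_⟩
  · have : algebraMap ↥Kt ↥(hs_E L h3 N)
        (algebraMap ↥(lg_F L N) ↥Kt x / algebraMap ↥(lg_F L N) ↥Kt y ^ 3) ∈ R' := hy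
    rw [map_div₀, map_pow] at this
    exact this
  · intro hnu
    apply hy'
    rw [ValuationSubring.mem_nonunits_iff_or] at hnu ⊢
    rcases hnu with h0 | h0
    · left
      have : algebraMap ↥Kt ↥(hs_E L h3 N)
          (algebraMap ↥(lg_F L N) ↥Kt x / algebraMap ↥(lg_F L N) ↥Kt y ^ 3) = 0 := by
        rw [map_div₀, map_pow]; exact h0
      exact (map_eq_zero _).1 this
    · right
      intro h1
      apply h0
      have : algebraMap ↥Kt ↥(hs_E L h3 N)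
          (algebraMap ↥(lg_F L N) ↥Kt x / algebraMap ↥(lg_F L N) ↥Kt y ^ 3)⁻¹ ∈ R' := h1
      rw [map_inv₀, map_div₀, map_pow] at this
      exact this

end TowerDescent27

end Fermat.Agent.M59
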