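/-
M59 / box [C] Mazur at `(q, p) = (2, 3)`, cell [GEO-32r] (E2-ord) AT EXPONENT `3`: THE EXPONENT-27 PASS
(helper5; route = referee helper12 ref54 (1)).  Prefix `m59h3o_`.

Twin of helper28's `m59h2_twfr_nf` (`Hesse2/Res/HesOrdNF.lean`): THE NUMBER-FIELD STEP with the
divisibility hypothesis at the exponent `27` and the conclusion at the exponent `3`.  The proof is
helper28's verbatim (Hesse cover `E = hs_E L h3 (N' q)`, chart coordinate `x = μ - 1`, residue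
characteristic `q ≠ 3`, `L ∋ ζ_{3N'}`) except for the last step, where the value-group descent
`m59h2_twfr_tower` (exponent prime to `6`) is replaced by `m59h3o_tower27` (27 ⟶ 9 ⟶ 3).
-/
import Mathlib
import Fermat.Agent.M59.Hesse2.Res.HesOrdNF
import Fermat.Agent.M59.Hesse3.Ord.Tower27

set_option autoImplicit false
set_option linter.style.haveILetI false
set_option linter.unusedSectionVars false
set_option linter.unusedVariables false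

noncomputable section

namespace Fermat.Agent.M59

open Fermat.Agent.SS Fermat.Agent.JT3 Fermat.Agent.S35 IntermediateField ModularCurve IsLocalRing
  AlgebraicCurve Polynomial Fermat.Agent.S44 Fermat.Agent.TW

section NF27

variable (L : Type) [Field L] [NumberField L] [Algebra L (AlgebraicClosure ℚ)]
  (h3 : (3 : L) ≠ 0) (O : ValuationSubring L) [IsDiscreteValuationRing O] (h3O : IsUnit (3 : O))
  {π : O} (hπ : Irreducible π)
variable (N' q : ℕ) [NeZero N'] [NeZero q] [hq : Fact q.Prime] [CharP (ResidueField O) q]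
  (hq3 : ¬ 3 ∣ q) (hqN' : ¬ q ∣ N') (ζ : L) (hζ : IsPrimitiveRoot ζ (3 * N'))

include hζ hq3 h3O h3 in
set_option synthInstance.maxHeartbeats 400000 in
set_option maxHeartbeats 6400000 in
/-- **(E2-ord), number-field step, Hesse cover, exponent `27` upstairs and `3` downstairs**:
a Gauss unit `f1` of `F` whose divisor is divisible by `27` is, at every non-supersingular composite
valuation `𝒱0`, a unit times a CUBE.  (helper28's `m59h2_twfr_nf` with the value-group descent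
`m59h2_twfr_tower` replaced by `m59h3o_tower27`; the `E`-level cell `s44rs_hdiv` is exponent-free.) -/
theorem m59h3o_twfr_nf27 (𝒱0 : ValuationSubring ↥(lg_F L (N' * q)))
    (h𝒱0 : 𝒱0 ≤ s44ro_W1 L O hπ N' q)
    (hA : ∀ a : ↥O, algebraMap ↥O ↥(lg_F L (N' * q)) a ∈ 𝒱0)
    (halg0 : ∀ x ∈ 𝒱0, ∃ p : (↥O)[X], p.Monic ∧ aeval x p ∈ 𝒱0.nonunits)
    (hns : s44ro_jF L (N' * q) ∉ 𝒱0 ∨ ∃ b0 : ↥(lg_F L (N' * q)),
      (∃ P : Polynomial (Polynomial ↥O), P.Monic ∧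
        eval₂ (eval₂RingHom (algebraMap ↥O ↥(lg_F L (N' * q))) (s44ro_jF L (N' * q))) b0 P = 0) ∧
      rdn_gf_W L N' q hqN' b0 ∈ (s44ro_W1 L O hπ N' q).nonunits ∧ b0 ∉ 𝒱0.nonunits)
    {f1 : ↥(lg_F L (N' * q))} (hf1 : f1 ≠ 0)
    (hord : ∀ P : Place L ↥(lg_F L (N' * q)), ((27 : ℕ) : ℤ) ∣ P.ord f1)
    (hb : f1 ∈ s44ro_W1 L O hπ N' q) (hbi : f1⁻¹ ∈ s44ro_W1 L O hπ N' q) :
    ∃ h : ↥(lg_F L (N' * q)), h ≠ 0 ∧ (f1 / h ^ 3 ∈ 𝒱0 ∧ f1 / h ^ 3 ∉ 𝒱0.nonunits) := by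
  obtain ⟨hreg1, hreg2, hprime1, hprime2, hic1, hic2⟩ :=
    m59h2_level_pkg L h3 O hπ N' q hq3 hqN' ζ hζ
  have F := ssm_fh_facts h3 O h3O hπ N' q hq3 hqN' hprime1
  have hs := ssm_sih_smooth h3 O h3O hπ N' q hq3 hqN' hprime1 hprime2 hic1 hic2 hreg1 hreg2
  haveI := ssm_go_isScalarTower O (hs_E L h3 (N' * q))
  haveI := ssm_go_isScalarTower O (lg_F L (N' * q))
  haveI : FiniteDimensional L⟮(hs_muE h3 (N' * q) - 1 : hs_E L h3 (N' * q))⟯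
      ↥(hs_E L h3 (N' * q)) := ssm_glh_finite h3 (N' * q)
  have hx : Transcendental L (hs_muE h3 (N' * q) - 1 : hs_E L h3 (N' * q)) :=
    ssm_sgm_transcendental h3 (N' * q)
  have H := ssm_fh_hyp h3 O h3O hπ N' q hq3 hqN' hprime1
  have hC := ssm_tp_ff_chart (L := L) (A0 := ↥O) (F0 := ↥(hs_E L h3 (N' * q))) hπ hx
  have hxA : Transcendental ↥O (hs_muE h3 (N' * q) - 1 : hs_E L h3 (N' * q)) :=
    fc_ff_transcendental (L := L) hx
  haveI : IsIntegrallyClosed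
      (Algebra.adjoin ↥O ({hs_muE h3 (N' * q) - 1} : Set ↥(hs_E L h3 (N' * q)))) :=
    fc_ff_isIntegrallyClosed hxA
  haveI : FaithfulSMul (Algebra.adjoin ↥O ({hs_muE h3 (N' * q) - 1} : Set ↥(hs_E L h3 (N' * q))))
      ↥(hs_E L h3 (N' * q)) :=
    (faithfulSMul_iff_algebraMap_injective _ _).2 Subtype.val_injective
  set V1 := ssm_fh_V1 h3 O h3O hπ N' q with hV1
  set V2 := ssm_fh_V2 h3 O h3O hπ N' q hq3 hqN' with hV2
  set W := ssm_fh_W h3 N' q hq3 hqN' with hW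
  set mu : ↥(hs_E L h3 (N' * q)) := hs_muE h3 (N' * q) with hmu
  set φ : ↥(lg_F L (N' * q)) →ₐ[L] ↥(hs_E L h3 (N' * q)) := hs_phiE h3 (N := N' * q) with hφ
  -- the extension of `𝒱0`
  have h0 : ∀ x ∈ 𝒱0, (φ : ↥(lg_F L (N' * q)) →+* ↥(hs_E L h3 (N' * q))) x ∈ V1 := fun x hx =>
    m59h2_s44ro_phi_mem L h3 O x (h𝒱0 hx)
  obtain ⟨𝒱', h𝒱'le, hiff⟩ :=
    s44rc_exists (φ : ↥(lg_F L (N' * q)) →+* ↥(hs_E L h3 (N' * q))) V1 𝒱0 h0
  have hnu := s44rc_nonunits (φ : ↥(lg_F L (N' * q)) →+* ↥(hs_E L h3 (N' * q))) hiff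
  have hnu1 : V1.nonunits ≤ 𝒱'.nonunits := ValuationSubring.nonunits_le_nonunits.2 h𝒱'le
  let φO : ↥(lg_F L (N' * q)) →ₐ[↥O] ↥(hs_E L h3 (N' * q)) := φ.restrictScalars ↥O
  have hA' : ∀ a : ↥O, algebraMap ↥O ↥(hs_E L h3 (N' * q)) a ∈ 𝒱' := fun a => by
    have : algebraMap ↥O ↥(hs_E L h3 (N' * q)) a =
        (φ : ↥(lg_F L (N' * q)) →+* ↥(hs_E L h3 (N' * q)))
          (algebraMap ↥O ↥(lg_F L (N' * q)) a) := (φO.commutes a).symm
    rw [this]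
    exact (hiff _).2 (hA a)
  have halg' : ∀ z ∈ 𝒱', ∃ p : (↥O)[X], p.Monic ∧ aeval z p ∈ 𝒱'.nonunits :=
    s44rc_alg φO (fun z => m59h2_s44ro_algebraic L h3 (N' * q) z) hiff hA halg0
  -- the coordinates
  set x : ↥(hs_E L h3 (N' * q)) := mu - 1 with hxdef
  set t : ↥(hs_E L h3 (N' * q)) := mu ^ 2 + mu + 1 with htdef
  set xq : ↥(hs_E L h3 (N' * q)) := W mu - 1 with hxqdef
  set tq : ↥(hs_E L h3 (N' * q)) := W mu ^ 2 + W mu + 1 with htqdef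
  have hWx : W x = xq := by rw [hxdef, hxqdef, map_sub, map_one]
  have hWt : W t = tq := by rw [htdef, htqdef, map_add, map_add, map_pow, map_one]
  have hx0 : x ≠ 0 := by
    intro h
    apply hx
    rw [h]
    exact isAlgebraic_zero
  have hxq0 : xq ≠ 0 := by
    rw [← hWx, Ne, map_eq_zero_iff _ W.injective]
    exact hx0
  have hmux : mu = x + 1 := by rw [hxdef]; ring
  have htx : t = x ^ 2 + 3 * x + 3 := by rw [htdef, hmux]; ring
  have ht0 : t ≠ 0 := by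
    intro h
    apply hx
    have h1 : aeval x (X ^ 2 + 3 * X + 3 : Polynomial L) = 0 := by
      simp only [map_add, map_mul, map_pow, aeval_X, map_ofNat]
      rw [← htx]; exact h
    have hne : (X ^ 2 + 3 * X + 3 : Polynomial L) ≠ 0 := by
      intro h2
      have := congrArg (fun p : Polynomial L => p.coeff 2) h2
      simp [coeff_X_pow, coeff_X, coeff_ofNat_mul] at this
    exact ⟨_, hne, h1⟩
  have htq0 : tq ≠ 0 := by
    rw [← hWt, Ne, map_eq_zero_iff _ W.injective]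
    exact ht0
  have hB1 : ∀ b ∈ fc_chart ↥O ({x} : Set ↥(hs_E L h3 (N' * q))), b ∈ V1 := fun b hb =>
    H.over1.mem_of_isIntegral (fc_mem_chart.1 hb)
  -- the witness on the `x`-chart
  have hwit : x ∈ 𝒱' → ∃ b : ↥(hs_E L h3 (N' * q)),
      b ∈ fc_chart ↥O ({x} : Set ↥(hs_E L h3 (N' * q))) ∧ b ∈ V2.nonunits ∧ b ∉ 𝒱'.nonunits := by
    intro hl
    by_cases hc0 : x ∈ 𝒱'.nonunits
    · -- the cusp `μ = 1`
      refine ⟨xq ^ q / x - 1, Subalgebra.sub_mem _ F.w0' (Subalgebra.one_mem _), F.w0'_sub, ?_⟩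
      exact s44ro_cusp_wit V1 𝒱' h𝒱'le hq.out.two_le hx0 hxq0 hc0 F.w0_sub
    by_cases hc1 : t ∈ 𝒱'.nonunits
    · -- the cusps `μ = ω, ω²`
      refine ⟨tq ^ q / t - 1, Subalgebra.sub_mem _ F.w1' (Subalgebra.one_mem _), F.w1'_sub, ?_⟩
      exact s44ro_cusp_wit V1 𝒱' h𝒱'le hq.out.two_le ht0 htq0 hc1 F.w1_sub
    -- `j(q³)` is finite
    have hmu𝒱 : mu ∈ 𝒱' := by rw [hmux]; exact 𝒱'.add_mem _ _ hl 𝒱'.one_mem
    have ht𝒱 : t ∈ 𝒱' := by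
      rw [htdef]
      exact 𝒱'.add_mem _ _ (𝒱'.add_mem _ _ (𝒱'.pow_mem hmu𝒱 2) hmu𝒱) 𝒱'.one_mem
    set s : ↥(hs_E L h3 (N' * q)) := mu ^ 3 - 1 with hs_def
    have hs_eq : s = x * t := by rw [hs_def, htdef, hxdef]; ring
    have hsnu : s ∉ 𝒱'.nonunits := by
      rw [hs_eq]; exact ssm_tp_mul_not_mem 𝒱' hc0 hc1
    set T : ↥(hs_E L h3 (N' * q)) := s ^ 3 with hT_def
    have hTnu : T ∉ 𝒱'.nonunits := ssm_tp_pow_not_mem 𝒱' hsnu 3
    have hleg : (27 : ↥(hs_E L h3 (N' * q))) * mu ^ 3 * (mu ^ 3 + 8) ^ 3 =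
        φ (s44ro_jF L (N' * q)) * T :=
      m59h2_s44ro_legendre_t L h3 (N' * q)
    have hxR : x ∈ Algebra.adjoin ↥O ({x} : Set ↥(hs_E L h3 (N' * q))) :=
      Algebra.subset_adjoin rfl
    have hmuR : mu ∈ Algebra.adjoin ↥O ({x} : Set ↥(hs_E L h3 (N' * q))) := by
      rw [hmux]; exact Subalgebra.add_mem _ hxR (Subalgebra.one_mem _)
    have hsR : s ∈ Algebra.adjoin ↥O ({x} : Set ↥(hs_E L h3 (N' * q))) :=
      Subalgebra.sub_mem _ (Subalgebra.pow_mem _ hmuR 3) (Subalgebra.one_mem _)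
    have hTR : T ∈ Algebra.adjoin ↥O ({x} : Set ↥(hs_E L h3 (N' * q))) :=
      Subalgebra.pow_mem _ hsR 3
    have h27 : (27 : ↥(hs_E L h3 (N' * q))) = algebraMap ↥O ↥(hs_E L h3 (N' * q)) 27 := by
      rw [map_ofNat]
    have h8 : (8 : ↥(hs_E L h3 (N' * q))) = algebraMap ↥O ↥(hs_E L h3 (N' * q)) 8 := by
      rw [map_ofNat]
    have hTjR : T * φ (s44ro_jF L (N' * q)) ∈
        Algebra.adjoin ↥O ({x} : Set ↥(hs_E L h3 (N' * q))) := by
      have e : T * φ (s44ro_jF L (N' * q)) =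
          (27 : ↥(hs_E L h3 (N' * q))) * mu ^ 3 * (mu ^ 3 + 8) ^ 3 :=
        (mul_comm _ _).trans hleg.symm
      rw [e]
      refine Subalgebra.mul_mem _ (Subalgebra.mul_mem _ ?_ (Subalgebra.pow_mem _ hmuR 3))
        (Subalgebra.pow_mem _ (Subalgebra.add_mem _ (Subalgebra.pow_mem _ hmuR 3) ?_) 3)
      · rw [h27]; exact Subalgebra.algebraMap_mem _ _
      · rw [h8]; exact Subalgebra.algebraMap_mem _ _
    -- `j ∈ 𝒱0`
    have hj𝒱' : φ (s44ro_jF L (N' * q)) ∈ 𝒱' := by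
      have hT0 : T ≠ 0 := ssm_tp_ne_zero 𝒱' hTnu
      have : φ (s44ro_jF L (N' * q)) = (27 * mu ^ 3 * (mu ^ 3 + 8) ^ 3) * T⁻¹ := by
        rw [hleg, mul_assoc, mul_inv_cancel₀ hT0, mul_one]
      rw [this]
      refine 𝒱'.mul_mem _ _ (𝒱'.mul_mem _ _ (𝒱'.mul_mem _ _ ?_ (𝒱'.pow_mem hmu𝒱 3))
        (𝒱'.pow_mem (𝒱'.add_mem _ _ (𝒱'.pow_mem hmu𝒱 3) ?_) 3)) (ssm_tp_inv_mem 𝒱' hTnu)
      · rw [h27]; exact hA' _
      · rw [h8]; exact hA' _
    have hj𝒱0 : s44ro_jF L (N' * q) ∈ 𝒱0 := (hiff _).1 hj𝒱'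
    rcases hns with hcusp | ⟨b0, ⟨P, hPm, hPb0⟩, hWb0, hb0nu⟩
    · exact absurd hj𝒱0 hcusp
    -- the chart change
    have hPy : eval₂ (eval₂RingHom (algebraMap ↥O ↥(hs_E L h3 (N' * q)))
        (φ (s44ro_jF L (N' * q)))) (φ b0) P = 0 := by
      have h1 := Polynomial.hom_eval₂ P
        (eval₂RingHom (algebraMap ↥O ↥(lg_F L (N' * q))) (s44ro_jF L (N' * q)))
        (φ : ↥(lg_F L (N' * q)) →+* ↥(hs_E L h3 (N' * q))) b0
      rw [hPb0, map_zero] at h1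
      have h2 : (φ : ↥(lg_F L (N' * q)) →+* ↥(hs_E L h3 (N' * q))).comp
          (eval₂RingHom (algebraMap ↥O ↥(lg_F L (N' * q))) (s44ro_jF L (N' * q))) =
          eval₂RingHom (algebraMap ↥O ↥(hs_E L h3 (N' * q))) (φ (s44ro_jF L (N' * q))) := by
        apply Polynomial.ringHom_ext
        · intro a
          simp only [RingHom.comp_apply, coe_eval₂RingHom, eval₂_C]
          exact φO.commutes a
        · simp only [RingHom.comp_apply, coe_eval₂RingHom, eval₂_X]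
          rfl
      rw [h2] at h1
      exact h1.symm
    obtain ⟨D, hD⟩ := s44ro_chart_mul (O := ↥O) x (φ (s44ro_jF L (N' * q))) T hTR hTjR
      (φ b0) P hPm hPy
    refine ⟨T ^ D * φ b0, fc_mem_chart.2 hD, ?_, ?_⟩
    · -- on the second component
      rw [hV2, s44ro_comap_nonunits, map_mul, map_pow, mul_comm (W T ^ D)]
      refine ssm_tp_nonunits_mul V1 ?_ (V1.pow_mem ?_ D)
      · -- `W (φ b0) = φ (W b0)`
        have e : W (φ b0) = φ (rdn_gf_W L N' q hqN' b0) :=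
          Subtype.ext (by
            rw [hs_phiE_coe]
            exact m59h2_s44ro_W_phi L h3 N' q hq3 hqN' b0)
        rw [e]
        have hbW : gq_IsBdd O L ((rdn_gf_W L N' q hqN' b0 : ↥(lg_F L (N' * q))) :
            LaurentSeries L) := ValuationSubring.nonunits_subset hWb0
        have hres := (gq_mem_nonunits_iff_res π hπ.ne_zero hπ.maximalIdeal_eq (lg_F L (N' * q))
          (rdn_gf_le_quotField O (N' * q)) _ hbW).1 hWb0
        exact (gq_mem_nonunits_iff_res π hπ.ne_zero hπ.maximalIdeal_eq (hs_E L h3 (N' * q))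
          (hsa_E_le_quotField h3 O (N' * q) h3O) _ (m59h2_s44ro_phi_mem L h3 O _ hbW)).2
          (m59h2_s44ro_phi_res L h3 O _ hbW hres)
      · -- `W T ∈ V1`
        have hxq1 : xq ∈ V1 := hB1 _ F.xq_mem
        have hWmu : W mu ∈ V1 := by
          have : W mu = xq + 1 := by rw [hxqdef]; ring
          rw [this]
          exact V1.add_mem _ _ hxq1 V1.one_mem
        have : W T = (W mu ^ 3 - 1) ^ 3 := by
          rw [hT_def, hs_def, map_pow, map_sub, map_pow, map_one]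
        rw [this]
        exact V1.pow_mem (sub_mem (V1.pow_mem hWmu 3) V1.one_mem) 3
    · -- a unit at `𝒱'`
      refine ssm_tp_mul_not_mem 𝒱' (ssm_tp_pow_not_mem 𝒱' hTnu D) ?_
      intro h1
      exact hb0nu ((hnu b0).1 h1)
  -- the two chart conditions
  have hpt1 : x ∈ 𝒱' →
      ∀ 𝔫 : Ideal (fc_chart ↥O ({x} : Set ↥(hs_E L h3 (N' * q)))), 𝔫.IsMaximal →
      ssm_tp_P (fc_chart ↥O ({x} : Set ↥(hs_E L h3 (N' * q)))) V1 ≤ 𝔫 →
      (∀ b : fc_chart ↥O ({x} : Set ↥(hs_E L h3 (N' * q))),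
        b ∈ 𝔫 ↔ (b : ↥(hs_E L h3 (N' * q))) ∈ 𝒱'.nonunits) →
      ss_SmoothAt π (fc_chart ↥O ({x} : Set ↥(hs_E L h3 (N' * q)))) 𝔫 := by
    intro hl 𝔫 h𝔫 hP1 hmem
    obtain ⟨b, hbB, hb2, hbu⟩ := hwit hl
    have hπ𝔫 : algebraMap ↥O (fc_chart ↥O ({x} : Set ↥(hs_E L h3 (N' * q)))) π ∈ 𝔫 := by
      apply hP1
      rw [H.mem_P1 hC]
      exact H.over1.pi_mem
    refine hs.1 𝔫 h𝔫 hπ𝔫 fun hP2 => ?_
    have hb𝔫 : (⟨b, hbB⟩ : fc_chart ↥O ({x} : Set ↥(hs_E L h3 (N' * q)))) ∈ 𝔫 := by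
      apply hP2
      rw [H.mem_P2 hC]
      exact hb2
    exact hbu ((hmem _).1 hb𝔫)
  have hpt2 : x ∉ 𝒱' →
      ∀ 𝔫 : Ideal (fc_chart ↥O ({x⁻¹} : Set ↥(hs_E L h3 (N' * q)))), 𝔫.IsMaximal →
      ssm_tp_P (fc_chart ↥O ({x⁻¹} : Set ↥(hs_E L h3 (N' * q)))) V1 ≤ 𝔫 →
      (∀ b : fc_chart ↥O ({x⁻¹} : Set ↥(hs_E L h3 (N' * q))),
        b ∈ 𝔫 ↔ (b : ↥(hs_E L h3 (N' * q))) ∈ 𝒱'.nonunits) →
      (⟨x⁻¹, fc_x_mem_chart x⁻¹⟩ : fc_chart ↥O ({x⁻¹} : Set ↥(hs_E L h3 (N' * q)))) ∈ 𝔫 →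
      ss_SmoothAt π (fc_chart ↥O ({x⁻¹} : Set ↥(hs_E L h3 (N' * q)))) 𝔫 := by
    intro hl 𝔫 h𝔫 hP1 hmem hμ
    have hxi : Transcendental L x⁻¹ :=
      fun h => hx (IsAlgebraic.inv_iff.mp h)
    have H2 := ssm_tp_ff_hyp_inv (L := L) hπ hx H
    have hC2 := ssm_tp_ff_chart (L := L) (A0 := ↥O) (F0 := ↥(hs_E L h3 (N' * q))) hπ hxi
    have hxiA : Transcendental ↥O x⁻¹ :=
      fc_ff_transcendental (L := L) hxi
    haveI : IsIntegrallyClosed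
        (Algebra.adjoin ↥O ({x⁻¹} : Set ↥(hs_E L h3 (N' * q)))) :=
      fc_ff_isIntegrallyClosed hxiA
    haveI : FaithfulSMul (Algebra.adjoin ↥O ({x⁻¹} : Set ↥(hs_E L h3 (N' * q))))
        ↥(hs_E L h3 (N' * q)) :=
      (faithfulSMul_iff_algebraMap_injective _ _).2 Subtype.val_injective
    have hπ𝔫 : algebraMap ↥O
        (fc_chart ↥O ({x⁻¹} : Set ↥(hs_E L h3 (N' * q)))) π ∈ 𝔫 := by
      apply hP1
      rw [H2.mem_P1 hC2]
      exact H2.over1.pi_mem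
    exact m59h2_s44rs_leg_pts2 L h3 O h3O hπ N' q hq3 hqN' ζ hζ 𝔫 h𝔫 hπ𝔫 hμ
  -- `G = φ f1`
  have hG0 : φ f1 ≠ 0 := by rwa [Ne, map_eq_zero]
  have hordG : ∀ P : Place L ↥(hs_E L h3 (N' * q)), ((27 : ℕ) : ℤ) ∣ P.ord (φ f1) := fun P =>
    lg_dvd_ord_of_embedding φ ((27 : ℕ) : ℤ) f1 hord P
  have hG1 : φ f1 ∈ V1 ∧ φ f1 ∉ V1.nonunits := by
    refine ⟨m59h2_s44ro_phi_mem L h3 O f1 hb, fun hnu' => ?_⟩
    rw [ValuationSubring.mem_nonunits_iff_or] at hnu'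
    rcases hnu' with h | h
    · exact hG0 h
    · apply h
      rw [← map_inv₀]
      exact m59h2_s44ro_phi_mem L h3 O f1⁻¹ hbi
  obtain ⟨e, ω, hGω, he, hω⟩ :=
    s44rs_hdiv (L := L) hπ hx H 𝒱' h𝒱'le hA' halg' hpt1 hpt2 27 hG0 hordG hG1
  obtain ⟨y, hy0, hy1, hy2⟩ := m59h3o_tower27 L h3 (N' * q) 𝒱' hf1 hω hGω
  refine ⟨y, hy0, ?_, ?_⟩
  · rw [← hiff, map_div₀, map_pow]
    exact hy1
  · rw [← hnu, map_div₀, map_pow]
    exact hy2

end NF27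

end Fermat.Agent.M59
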