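/-
M59 / box [C] Mazur at `(q, p) = (2, 3)`, cell [GEO-32r] (E2-ord) AT EXPONENT `3`: THE EXPONENT-27 PASS
(helper5; route = referee helper12 ref54 (1)).  Prefix `m59h3o_`.

* `m59h3o_twfr_ord27`   : twin of helper28's `m59h2_twfr_ord` (`Hesse2/Res/HesOrdMain.lean`): a Gauss unit
  of `F̄_{Mp}` whose divisor is divisible by `27` has a reduction whose order at every
  non-supersingular place of `FF_M / k_A` is divisible by `3` (residue prime `p ≠ 3`).
* **`m59h3o_ordOff_three : twfr_OrdOff A hA M hpM 3`** : main's cover-free Prop (E2-ord) AT THE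
  EXPONENT `3` (`TW/Easy/Res/OrdMain.lean`), for every `A` over a prime `p ≠ 3`, `p ∤ M`: the
  exponent device `m59h3o_exists_adjust` at `(a, b) = (3, 9)` turns a Gauss unit `f` with
  `3 ∣ div f` into `f h³` with `27 ∣ div (f h³)`, `h` a Gauss unit after normalisation
  (`s44pg_nrm`), and `red (f h³) = red f · (red h)³`.
-/
import Mathlib
import Fermat.Agent.M59.Hesse2.Res.HesOrdMain
import Fermat.Agent.M59.Hesse3.Ord.OrdAt27

set_option autoImplicit false
set_option linter.style.haveILetI false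
set_option linter.unusedSectionVars false
set_option linter.unusedVariables false

noncomputable section

namespace Fermat.Agent.M59

open Fermat.Agent.SS Fermat.Agent.JT3 Fermat.Agent.S35 Fermat.Agent.S24 IntermediateField
  ModularCurve IsLocalRing AlgebraicCurve Polynomial Fermat.Agent.S44 Fermat.Agent.TW

local notation "Qb" => AlgebraicClosure ℚ

section Main27

variable (A : ValuationSubring Qb) {p : ℕ} [hp : Fact p.Prime] (hA : A.LiesOverPrime p)
  (M : ℕ) [NeZero M] [NeZero p] [NeZero (M * p)] (hpM : ¬ p ∣ M)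

set_option synthInstance.maxHeartbeats 400000 in
set_option maxHeartbeats 3200000 in
/-- **(E2-ord), 27 ⟶ 3**: the reduction of a Gauss unit whose divisor is divisible by `27` has order
divisible by `3` at every non-supersingular place. -/
theorem m59h3o_twfr_ord27 (hp3 : ¬ 3 ∣ p)
    (f : ↥(s44pg_W A hA hp.out.ne_zero (M * p)))
    (hfi : ((f : modularFunctionFieldBar (M * p)))⁻¹ ∈ s44pg_W A hA hp.out.ne_zero (M * p))
    (hord : ∀ v : Place Qb (modularFunctionFieldBar (M * p)),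
      ((27 : ℕ) : ℤ) ∣ v.ord (f : modularFunctionFieldBar (M * p)))
    (Q : Place (s44e_kA A) (s44e_FF A M)) (hQ : ¬ s44e_IsSS A M p hp.out hpM Q) :
    ((3 : ℕ) : ℤ) ∣ Q.ord (s44rd_red A hA M hpM f) := by
  classical
  haveI : NeZero (3 * M) := ⟨Nat.mul_ne_zero (by norm_num) (NeZero.ne M)⟩
  obtain ⟨ζ', hζ'⟩ := HasEnoughRootsOfUnity.exists_primitiveRoot Qb (3 * M)
  -- the finite set coming from non-supersingularity
  obtain ⟨T, hT⟩ : ∃ T : Finset Qb, ∀ (L1 : IntermediateField ℚ Qb) [FiniteDimensional ℚ ↥L1],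
      (↑T : Set Qb) ⊆ L1 →
      (jcr_j (k := ResidueField ↥A) M ∉ Q.toValuationSubring ∨
      ∃ (b1 : ↥(lg_F ↥L1 (M * p)))
        (hb : ssm_al_iotaF ↥L1 (M * p) b1 ∈ s44pg_W A hA hp.out.ne_zero (M * p))
        (hW : gq_IsBdd ↥(A.comap (algebraMap ↥L1 Qb)) ↥L1
          ((ssm_al_W ↥L1 M p hp.out hpM b1 : ↥(lg_F ↥L1 (M * p))) : LaurentSeries ↥L1)),
        IsIntegral (Algebra.adjoin ↥(A.comap (algebraMap ↥L1 Qb))
          ({rdn_gf_j (L := ↥L1) (M * p)} : Set ↥(lg_F ↥L1 (M * p)))) b1 ∧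
        gq_res ↥(A.comap (algebraMap ↥L1 Qb)) ↥L1 ⟨_, hW⟩ = 0 ∧
        s44rd_red A hA M hpM ⟨ssm_al_iotaF ↥L1 (M * p) b1, hb⟩ ∉
          Q.toValuationSubring.nonunits) := by
    by_cases hj : jcr_j (k := ResidueField ↥A) M ∈ Q.toValuationSubring
    · obtain ⟨T, hT⟩ := s44ec_not_isSS_nf A hA M hpM hj hQ
      exact ⟨T, fun L1 _ h => Or.inr (hT L1 h)⟩
    · exact ⟨∅, fun L1 _ _ => Or.inl hj⟩
  obtain ⟨L1, hfd, -, hTL, hS⟩ := s44b_exists_nf (M * p)
    ({(f : modularFunctionFieldBar (M * p))} : Finset _) (insert ζ' T)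
  haveI := hfd
  haveI : NumberField ↥L1 := { to_charZero := inferInstance, to_finiteDimensional := hfd }
  obtain ⟨f1, hf1⟩ := hS _ (Finset.mem_singleton_self _)
  have hζL : ζ' ∈ L1 := hTL (by
    rw [Finset.coe_insert]
    exact Set.mem_insert _ _)
  have hTL' : (↑T : Set Qb) ⊆ L1 := fun a ha => hTL (by
    rw [Finset.coe_insert]
    exact Set.mem_insert_of_mem _ ha)
  have hζ1 : IsPrimitiveRoot (⟨ζ', hζL⟩ : ↥L1) (3 * M) :=
    (IsPrimitiveRoot.map_iff_of_injective (f := algebraMap ↥L1 Qb)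
      (algebraMap ↥L1 Qb).injective).1 hζ'
  have hord1 : ∀ v : Place ↥L1 ↥(lg_F ↥L1 (M * p)), ((27 : ℕ) : ℤ) ∣ v.ord f1 :=
    s44ro_hord_desc L1 (M * p) ((27 : ℕ) : ℤ) f1 (fun v => by rw [hf1]; exact hord v)
  have hfW : ssm_al_iotaF ↥L1 (M * p) f1 ∈ s44pg_W A hA hp.out.ne_zero (M * p) := by
    rw [hf1]
    exact f.2
  have key := m59h3o_twfr_ord_at27 A hA M hpM hp3 L1 ⟨ζ', hζL⟩ hζ1 Q (hT L1 hTL') f1 hfW
    (by rw [hf1]; exact hfi) hord1
  have e : f = ⟨ssm_al_iotaF ↥L1 (M * p) f1, hfW⟩ := Subtype.ext hf1.symm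
  rw [e]
  exact key


set_option synthInstance.maxHeartbeats 400000 in
set_option maxHeartbeats 1600000 in
/-- **(E2-ord) AT THE EXPONENT `3`** (main's cover-free Prop `twfr_OrdOff`), residue prime `p ≠ 3`:
the reduction of a Gauss unit whose divisor is divisible by `3` has order divisible by `3` at every
non-supersingular place. -/
theorem m59h3o_ordOff_three (hp3 : ¬ 3 ∣ p) : twfr_OrdOff A hA M hpM 3 := by
  intro f hfi hord Q hQ
  rcases eq_or_ne (f : modularFunctionFieldBar (M * p)) 0 with hf0 | hf0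
  · have h0 : f = 0 := Subtype.ext hf0
    rw [h0, map_zero]
    simp
  -- the exponent device
  obtain ⟨h, hh0, hh⟩ := m59h3o_exists_adjust (M * p) (a := 3) (b := 9) (by norm_num)
    (by norm_num) hf0 hord
  -- Gauss normalisation of `h`
  obtain ⟨c, hc0, hg1, hg2⟩ := s44pg_nrm A hA hp.out.ne_zero (M * p) hh0
  set g : modularFunctionFieldBar (M * p) :=
    algebraMap Qb (modularFunctionFieldBar (M * p)) c * h with hg
  have hc' : algebraMap Qb (modularFunctionFieldBar (M * p)) c ≠ 0 :=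
    (_root_.map_ne_zero _).2 hc0
  have hg0 : g ≠ 0 := mul_ne_zero hc' hh0
  -- `f g³` is a Gauss unit whose divisor is divisible by `27`
  have hF : (f : modularFunctionFieldBar (M * p)) * g ^ 3 ∈ s44pg_W A hA hp.out.ne_zero (M * p) :=
    (s44pg_W A hA hp.out.ne_zero (M * p)).mul_mem _ _ f.2 ((s44pg_W A hA hp.out.ne_zero (M * p)).pow_mem hg1 3)
  have hFi : ((f : modularFunctionFieldBar (M * p)) * g ^ 3)⁻¹ ∈ s44pg_W A hA hp.out.ne_zero (M * p) := by
    rw [mul_inv, ← inv_pow]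
    exact (s44pg_W A hA hp.out.ne_zero (M * p)).mul_mem _ _ hfi ((s44pg_W A hA hp.out.ne_zero (M * p)).pow_mem hg2 3)
  have hF27 : ∀ v : Place Qb (modularFunctionFieldBar (M * p)),
      ((27 : ℕ) : ℤ) ∣ v.ord ((f : modularFunctionFieldBar (M * p)) * g ^ 3) := by
    intro v
    have e : (f : modularFunctionFieldBar (M * p)) * g ^ 3 =
        algebraMap Qb (modularFunctionFieldBar (M * p)) (c ^ 3) *
          ((f : modularFunctionFieldBar (M * p)) * h ^ 3) := by
      rw [hg, mul_pow, map_pow]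
      ring
    have hfh0 : (f : modularFunctionFieldBar (M * p)) * h ^ 3 ≠ 0 :=
      mul_ne_zero hf0 (pow_ne_zero _ hh0)
    rw [e, v.ord_mul ((_root_.map_ne_zero _).2 (pow_ne_zero _ hc0)) hfh0, hw_ord_algebraMap,
      zero_add]
    exact hh v
  have key := m59h3o_twfr_ord27 A hA M hpM hp3
    ⟨(f : modularFunctionFieldBar (M * p)) * g ^ 3, hF⟩ hFi hF27 Q hQ
  -- reductions
  have hmul : (⟨(f : modularFunctionFieldBar (M * p)) * g ^ 3, hF⟩ : ↥(s44pg_W A hA hp.out.ne_zero (M * p))) = f * ⟨g, hg1⟩ ^ 3 :=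
    Subtype.ext rfl
  rw [hmul, map_mul, map_pow] at key
  have hrf0 : s44rd_red A hA M hpM f ≠ 0 := by
    have h1 : s44rd_red A hA M hpM f *
        s44rd_red A hA M hpM ⟨(f : modularFunctionFieldBar (M * p))⁻¹, hfi⟩ = 1 := by
      rw [← map_mul]
      have : (f * ⟨(f : modularFunctionFieldBar (M * p))⁻¹, hfi⟩ : ↥(s44pg_W A hA hp.out.ne_zero (M * p))) = 1 :=
        Subtype.ext (mul_inv_cancel₀ hf0)
      rw [this, map_one]
    exact left_ne_zero_of_mul_eq_one h1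
  have hrg0 : s44rd_red A hA M hpM ⟨g, hg1⟩ ≠ 0 := by
    have h1 : s44rd_red A hA M hpM ⟨g, hg1⟩ * s44rd_red A hA M hpM ⟨g⁻¹, hg2⟩ = 1 := by
      rw [← map_mul]
      have : (⟨g, hg1⟩ * ⟨g⁻¹, hg2⟩ : ↥(s44pg_W A hA hp.out.ne_zero (M * p))) = 1 := Subtype.ext (mul_inv_cancel₀ hg0)
      rw [this, map_one]
    exact left_ne_zero_of_mul_eq_one h1
  rw [Q.ord_mul hrf0 (pow_ne_zero 3 hrg0), ← zpow_natCast, Q.ord_zpow] at key
  have h3 : ((3 : ℕ) : ℤ) ∣ ((3 : ℕ) : ℤ) * Q.ord (s44rd_red A hA M hpM ⟨g, hg1⟩) :=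
    dvd_mul_right _ _
  exact (dvd_add_left h3).1 key

end Main27

end Fermat.Agent.M59
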